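import Fermat.Agent.S16.Defs
import Fermat.Agent.S23.LevelOne
import Fermat.Agent.S28.QBridge

/-!
# S16 toolkit: level one forms (owner: helper69)

* `levelOne_coeff_mem`: "Sturm bound modulo anything".  If `e` is a level one form of weight `k`
  and `M` is an additive subgroup of `ℂ` containing the coefficients `a_j(e)` for `12 j ≤ k`,
  then `M` contains all the coefficients of `e`.
* `levelOne_wt2`, `levelOne_wt4`, `levelOne_wt6`: level one forms of weight `2`, `4`, `6`
  (the weight is a variable `k` with a hypothesis `k = 2` etc., because the toolkit returns forms of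
  weight `k * i`).
-/

set_option autoImplicit false

namespace Fermat.Agent.S16

open ModularCurve UpperHalfPlane ModularForm ModularFormClass EisensteinSeries
open scoped MatrixGroups

/-- `f` has all its coefficients in the additive subgroup `M`. -/
def CoeffsIn (M : AddSubgroup ℂ) (f : PowerSeries ℂ) : Prop := ∀ n : ℕ, f.coeff n ∈ M

lemma coeff_intMap_mul_mem (M : AddSubgroup ℂ) (g : PowerSeries ℤ) (f : PowerSeries ℂ) (n : ℕ)
    (hf : ∀ j : ℕ, j ≤ n → f.coeff j ∈ M) :
    (PowerSeries.map (Int.castRingHom ℂ) g * f).coeff n ∈ M := by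
  rw [PowerSeries.coeff_mul]
  refine AddSubgroup.sum_mem _ fun x hx => ?_
  rw [PowerSeries.coeff_map]
  have hle : x.2 ≤ n := by
    have := Finset.HasAntidiagonal.mem_antidiagonal.mp hx
    omega
  have := M.zsmul_mem (hf x.2 hle) (g.coeff x.1)
  simpa [zsmul_eq_mul] using this

lemma coeff_mul_isInt_mem (M : AddSubgroup ℂ) (g f : PowerSeries ℂ) (n : ℕ)
    (hg : Fermat.Agent.S23.IsIntSeries g) (hf : ∀ j : ℕ, j ≤ n → f.coeff j ∈ M) :
    (g * f).coeff n ∈ M := by
  rw [PowerSeries.coeff_mul]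
  refine AddSubgroup.sum_mem _ fun x hx => ?_
  obtain ⟨m, hm⟩ := hg x.1
  have hle : x.2 ≤ n := by
    have := Finset.HasAntidiagonal.mem_antidiagonal.mp hx
    omega
  have := M.zsmul_mem (hf x.2 hle) m
  rw [hm]
  simpa [zsmul_eq_mul] using this

/-- A level one form of negative weight has zero `q`-expansion. -/
lemma levelOne_qExpansion_neg_weight {k : ℤ} (hk : k < 0) (e : ModularForm 𝒮ℒ k) :
    qExpansion 1 e = 0 := by
  have h0 : (e : ℍ → ℂ) = 0 := levelOne_neg_weight_eq_zero hk e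
  rw [h0]
  exact qExpansion_zero 1

/-- The key step: dividing by `Δ`. -/
lemma levelOne_step (k : ℤ) (g : ModularForm 𝒮ℒ k) (M : AddSubgroup ℂ)
    (h0 : (qExpansion 1 g).coeff 0 = 0) (d : ℕ)
    (hg : ∀ j : ℕ, j ≤ d + 1 → (qExpansion 1 g).coeff j ∈ M) :
    ∀ j : ℕ, j ≤ d →
      (qExpansion 1 (CuspForm.discriminantEquiv (toCuspForm g h0))).coeff j ∈ M := by
  intro j hj
  set g' := CuspForm.discriminantEquiv (toCuspForm g h0) with hg'
  have hfac : qExpansion 1 g = PowerSeries.X *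
      (PowerSeries.map (Int.castRingHom ℂ) dedekindEtaUnit * qExpansion 1 g') := by
    rw [qExpansion_eq_qExpansion_discriminant_mul g h0,
      Fermat.Agent.S28.QExp.qExpansion_discriminant, mul_assoc]
  -- the shifted series
  have hshift : ∀ n : ℕ, (PowerSeries.map (Int.castRingHom ℂ) dedekindEtaUnit *
      qExpansion 1 g').coeff n = (qExpansion 1 g).coeff (n + 1) := by
    intro n
    rw [hfac, PowerSeries.coeff_succ_X_mul]
  have hinv : qExpansion 1 g' = PowerSeries.map (Int.castRingHom ℂ) dedekindEtaUnitInv *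
      (PowerSeries.map (Int.castRingHom ℂ) dedekindEtaUnit * qExpansion 1 g') := by
    rw [← mul_assoc, ← map_mul, mul_comm dedekindEtaUnitInv, dedekindEtaUnit_mul_inv, map_one,
      one_mul]
  rw [hinv]
  refine coeff_intMap_mul_mem M _ _ j fun i hi => ?_
  rw [hshift]
  exact hg (i + 1) (by omega)

/-- **Sturm bound modulo anything**: if the coefficients `a_j(e)`, `12 j ≤ k`, of a level one
form `e` of weight `k` lie in an additive subgroup `M` of `ℂ`, then all coefficients do. -/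
theorem levelOne_coeff_mem_aux : ∀ (n : ℕ) (k : ℤ), k.toNat = n → ∀ (e : ModularForm 𝒮ℒ k)
    (M : AddSubgroup ℂ), (∀ j : ℕ, 12 * (j : ℤ) ≤ k → (qExpansion 1 e).coeff j ∈ M) →
    ∀ m : ℕ, (qExpansion 1 e).coeff m ∈ M := by
  intro n
  induction n using Nat.strong_induction_on with
  | _ n ih =>
  intro k hkn e M h m
  rcases lt_or_ge k 0 with hneg | hnonneg
  · rw [levelOne_qExpansion_neg_weight hneg e]
    simp
  rcases Int.even_or_odd k with hev | hodd
  swap
  · rw [ModularForm.levelOne_odd_weight_eq_zero hodd e]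
    have : ((0 : ModularForm 𝒮ℒ k) : ℍ → ℂ) = 0 := rfl
    rw [this, qExpansion_zero]
    simp
  by_cases hk2 : k = 2
  · subst hk2
    have he : e = 0 := rank_zero_iff_forall_zero.mp levelOne_weight_two_rank_zero e
    rw [he]
    have : ((0 : ModularForm 𝒮ℒ 2) : ℍ → ℂ) = 0 := rfl
    rw [this, qExpansion_zero]
    simp
  -- a monomial of weight `k`
  obtain ⟨a, b, hab⟩ : ∃ (a b : ℕ), (4 * a + 6 * b : ℤ) = k := by
    rcases eq_or_lt_of_le hnonneg with h0 | hpos
    · exact ⟨0, 0, by simpa using h0⟩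
    · refine Fermat.Agent.S23.exists_monoForm_of_even ?_ hev
      obtain ⟨r, hr⟩ := hev
      omega
  set E := Fermat.Agent.S23.monoForm k a b hab with hE
  have hEint : Fermat.Agent.S23.IsIntSeries (qExpansion 1 E) :=
    Fermat.Agent.S23.isIntSeries_monoForm k a b hab
  have hE0 : (qExpansion 1 E).coeff 0 = 1 :=
    Fermat.Agent.S23.qExpansion_monoForm_coeff_zero k a b hab
  set c := (qExpansion 1 e).coeff 0 with hc
  have hcM : c ∈ M := h 0 (by simpa using hnonneg)
  -- coefficients of `c • E`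
  have hcE : ∀ j : ℕ, c * (qExpansion 1 E).coeff j ∈ M := by
    intro j
    obtain ⟨z, hz⟩ := hEint j
    rw [hz, mul_comm]
    have := M.zsmul_mem hcM z
    simpa [zsmul_eq_mul] using this
  set g : ModularForm 𝒮ℒ k := e - c • E with hg
  have hgq : qExpansion 1 g = qExpansion 1 e - c • qExpansion 1 E := by
    have h1 : (g : ℍ → ℂ) = (e : ℍ → ℂ) - ((c • E : ModularForm 𝒮ℒ k) : ℍ → ℂ) := rfl
    rw [h1, ModularForm.qExpansion_sub one_pos one_mem_strictPeriods_SL e (c • E)]
    have h2 : ((c • E : ModularForm 𝒮ℒ k) : ℍ → ℂ) = c • (E : ℍ → ℂ) := rfl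
    rw [h2, ModularForm.qExpansion_smul one_pos one_mem_strictPeriods_SL c E]
  have hgcoeff : ∀ j : ℕ, (qExpansion 1 g).coeff j =
      (qExpansion 1 e).coeff j - c * (qExpansion 1 E).coeff j := by
    intro j
    rw [hgq]
    simp
  have hg0 : (qExpansion 1 g).coeff 0 = 0 := by
    rw [hgcoeff, hE0, mul_one, ← hc, sub_self]
  -- it suffices to treat `g`
  suffices hsuff : ∀ m : ℕ, (qExpansion 1 g).coeff m ∈ M by
    have := M.add_mem (hsuff m) (hcE m)
    rwa [hgcoeff, sub_add_cancel] at this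
  set g' := CuspForm.discriminantEquiv (toCuspForm g hg0) with hg'
  have hfac : qExpansion 1 g = PowerSeries.X *
      (PowerSeries.map (Int.castRingHom ℂ) dedekindEtaUnit * qExpansion 1 g') := by
    rw [qExpansion_eq_qExpansion_discriminant_mul g hg0,
      Fermat.Agent.S28.QExp.qExpansion_discriminant, mul_assoc]
  -- all coefficients of `g'` lie in `M`
  have hg'M : ∀ j : ℕ, (qExpansion 1 g').coeff j ∈ M := by
    rcases lt_or_ge k 12 with hlt | hge
    · intro j
      rw [levelOne_qExpansion_neg_weight (by omega) g']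
      simp
    · have hlow : ∀ j : ℕ, 12 * (j : ℤ) ≤ k - 12 → (qExpansion 1 g').coeff j ∈ M := by
        intro j hj
        refine levelOne_step k g M hg0 j (fun i hi => ?_) j le_rfl
        rw [hgcoeff]
        refine M.sub_mem (h i ?_) (hcE i)
        have : (i : ℤ) ≤ j + 1 := by exact_mod_cast hi
        omega
      refine ih (k - 12).toNat ?_ (k - 12) rfl g' M hlow
      omega
  intro m
  rw [hfac]
  rcases m with _ | m
  · simp
  · rw [PowerSeries.coeff_succ_X_mul]
    exact coeff_intMap_mul_mem M _ _ m fun j _ => hg'M j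

theorem levelOne_coeff_mem (k : ℤ) (e : ModularForm 𝒮ℒ k) (M : AddSubgroup ℂ)
    (h : ∀ j : ℕ, 12 * (j : ℤ) ≤ k → (qExpansion 1 e).coeff j ∈ M) :
    ∀ n : ℕ, (qExpansion 1 e).coeff n ∈ M :=
  levelOne_coeff_mem_aux k.toNat k rfl e M h

/-- Level one forms of weight `2` vanish. -/
theorem levelOne_wt2 (k : ℤ) (hk : k = 2) (e : ModularForm 𝒮ℒ k) : qExpansion 1 e = 0 := by
  subst hk
  have he : e = 0 := rank_zero_iff_forall_zero.mp levelOne_weight_two_rank_zero e
  rw [he]
  have : ((0 : ModularForm 𝒮ℒ 2) : ℍ → ℂ) = 0 := rfl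
  rw [this, qExpansion_zero]

/-- Level one forms of weight `4` are multiples of `E₄`. -/
theorem levelOne_wt4 (k : ℤ) (hk : k = 4) (e : ModularForm 𝒮ℒ k) :
    qExpansion 1 e = (qExpansion 1 e).coeff 0 • qExpansion 1 E₄ := by
  subst hk
  obtain ⟨c, hc⟩ : ∃ c : ℂ, c • E₄ = e :=
    (finrank_eq_one_iff_of_nonzero' E₄ (E_ne_zero _ ⟨2, rfl⟩)).mp
      (Module.rank_eq_one_iff_finrank_eq_one.mp levelOne_weight_four_rank_one) _
  have hq : qExpansion 1 e = c • qExpansion 1 E₄ := by
    rw [← hc]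
    have h2 : ((c • E₄ : ModularForm 𝒮ℒ 4) : ℍ → ℂ) = c • (E₄ : ℍ → ℂ) := rfl
    rw [h2, ModularForm.qExpansion_smul one_pos one_mem_strictPeriods_SL c E₄]
  have h0 : (qExpansion 1 e).coeff 0 = c := by
    rw [hq]
    simp [E_qExpansion_coeff_zero _ ⟨2, rfl⟩]
  rw [h0]
  exact hq

/-- Level one forms of weight `6` are multiples of `E₆`. -/
theorem levelOne_wt6 (k : ℤ) (hk : k = 6) (e : ModularForm 𝒮ℒ k) :
    qExpansion 1 e = (qExpansion 1 e).coeff 0 • qExpansion 1 E₆ := by
  subst hk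
  obtain ⟨c, hc⟩ : ∃ c : ℂ, c • E₆ = e :=
    (finrank_eq_one_iff_of_nonzero' E₆ (E_ne_zero _ ⟨3, rfl⟩)).mp
      (Module.rank_eq_one_iff_finrank_eq_one.mp levelOne_weight_six_rank_one) _
  have hq : qExpansion 1 e = c • qExpansion 1 E₆ := by
    rw [← hc]
    have h2 : ((c • E₆ : ModularForm 𝒮ℒ 6) : ℍ → ℂ) = c • (E₆ : ℍ → ℂ) := rfl
    rw [h2, ModularForm.qExpansion_smul one_pos one_mem_strictPeriods_SL c E₆]
  have h0 : (qExpansion 1 e).coeff 0 = c := by
    rw [hq]
    simp [E_qExpansion_coeff_zero _ ⟨3, rfl⟩]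
  rw [h0]
  exact hq

end Fermat.Agent.S16
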