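import Fermat.Agent.S16.Defs
import Mathlib.NumberTheory.ModularForms.LevelOne.DimensionFormula
import Mathlib.RingTheory.RootsOfUnity.Complex

/-!
# S16 toolkit algebra, part 1: `U_p` on power series and the trace to level one

Owner: helper99.  Everything here is derived from a `CuspZeroData p hp` (taken as a hypothesis).

* `upSeries p f` : the operator `U_p` on power series, `coeff n (upSeries p f) = coeff (p * n) f`.
* `sum_rescale_zetaP` : `∑_{j < p} B(ζ^j X) = p • (U_p B)(X^p)`.
* `CuspZeroData.trace_levelOne` : `qExp F + p • U_p (Z k F)` is the `q`-expansion of a level one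
  form of weight `k` (the trace of `F`).
* `CuspZeroData.upSeries_Z_two`, `CuspZeroData.Z_two`, `CuspZeroData.upSeries_upSeries_two` :
  in weight `2` (where `M₂(SL₂(ℤ)) = 0`): `U_p (Z 2 G) = -(1/p) • qExp G`,
  `Z 2 G = -(1/p) • U_p (qExp G)` and `U_p (U_p (qExp G)) = qExp G`.
-/

set_option autoImplicit false

namespace Fermat.Agent.S16

open ModularCurve CuspForm UpperHalfPlane ModularFormClass
open scoped MatrixGroups

noncomputable section

/-- The operator `U_p` on power series: `coeff n (upSeries p f) = coeff (p * n) f`. -/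
def upSeries {R : Type*} [Semiring R] (p : ℕ) (f : PowerSeries R) : PowerSeries R :=
  PowerSeries.mk fun n => PowerSeries.coeff (p * n) f

@[simp]
lemma coeff_upSeries {R : Type*} [Semiring R] (p n : ℕ) (f : PowerSeries R) :
    PowerSeries.coeff n (upSeries p f) = PowerSeries.coeff (p * n) f := by
  simp [upSeries]

lemma upSeries_add {R : Type*} [Semiring R] (p : ℕ) (f g : PowerSeries R) :
    upSeries p (f + g) = upSeries p f + upSeries p g := by
  ext n; simp

lemma upSeries_zero {R : Type*} [Semiring R] (p : ℕ) :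
    upSeries p (0 : PowerSeries R) = 0 := by
  ext n; simp

lemma upSeries_smul {R : Type*} [Semiring R] (p : ℕ) (c : R) (f : PowerSeries R) :
    upSeries p (c • f) = c • upSeries p f := by
  ext n; simp

lemma upSeries_neg {R : Type*} [Ring R] (p : ℕ) (f : PowerSeries R) :
    upSeries p (-f) = -upSeries p f := by
  ext n; simp

lemma upSeries_sub {R : Type*} [Ring R] (p : ℕ) (f g : PowerSeries R) :
    upSeries p (f - g) = upSeries p f - upSeries p g := by
  ext n; simp

lemma upSeries_expand {R : Type*} [CommRing R] (p : ℕ) (hp : p ≠ 0) (f : PowerSeries R) :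
    upSeries p (PowerSeries.expand p hp f) = f := by
  ext n; simp

lemma upSeries_map {R S : Type*} [Semiring R] [Semiring S] (φ : R →+* S) (p : ℕ)
    (f : PowerSeries R) :
    upSeries p (PowerSeries.map φ f) = PowerSeries.map φ (upSeries p f) := by
  ext n; simp

lemma expand_injective (p : ℕ) (hp : p ≠ 0) :
    Function.Injective (PowerSeries.expand (R := ℂ) p hp) := by
  intro f g h
  ext n
  have := congrArg (PowerSeries.coeff (p * n)) h
  simpa using this

lemma zetaP_isPrimitiveRoot (p : ℕ) (hp : p ≠ 0) : IsPrimitiveRoot (zetaP p) p := by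
  unfold zetaP
  have := Complex.isPrimitiveRoot_exp p hp
  simpa using this

lemma zetaP_pow_self (p : ℕ) (hp : p ≠ 0) : zetaP p ^ p = 1 :=
  (zetaP_isPrimitiveRoot p hp).pow_eq_one

/-- `∑_{j < p} ζ^{j n} = p` if `p ∣ n`, and `0` otherwise. -/
lemma sum_zetaP_pow (p : ℕ) (hp : p ≠ 0) (n : ℕ) :
    ∑ j ∈ Finset.range p, (zetaP p ^ j) ^ n = if p ∣ n then (p : ℂ) else 0 := by
  have hζ := zetaP_isPrimitiveRoot p hp
  have hrw : ∀ j : ℕ, (zetaP p ^ j) ^ n = (zetaP p ^ n) ^ j := fun j => by
    rw [← pow_mul, ← pow_mul, mul_comm]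
  simp_rw [hrw]
  split_ifs with h
  · have h1 : zetaP p ^ n = 1 := (hζ.pow_eq_one_iff_dvd n).mpr h
    simp [h1]
  · have h1 : zetaP p ^ n ≠ 1 := fun h1 => h ((hζ.pow_eq_one_iff_dvd n).mp h1)
    have h2 : (zetaP p ^ n) ^ p = 1 := by
      rw [← pow_mul, mul_comm, pow_mul, hζ.pow_eq_one, one_pow]
    have h3 := mul_neg_geom_sum (zetaP p ^ n) p
    rw [h2, sub_self] at h3
    have h4 : (1 - zetaP p ^ n) ≠ 0 := sub_ne_zero.mpr (Ne.symm h1)
    exact (mul_eq_zero.mp h3).resolve_left h4

/-- `∑_{j < p} B(ζ^j X) = p • (U_p B)(X^p)`. -/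
lemma sum_rescale_zetaP (p : ℕ) (hp : p ≠ 0) (B : PowerSeries ℂ) :
    ((Multiset.range p).map fun j => PowerSeries.rescale (zetaP p ^ j) B).sum =
      (p : ℂ) • PowerSeries.expand p hp (upSeries p B) := by
  have : ((Multiset.range p).map fun j => PowerSeries.rescale (zetaP p ^ j) B).sum =
      ∑ j ∈ Finset.range p, PowerSeries.rescale (zetaP p ^ j) B := rfl
  rw [this]
  ext n
  rw [map_sum]
  simp only [PowerSeries.coeff_rescale, PowerSeries.coeff_smul, PowerSeries.coeff_expand,
    coeff_upSeries]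
  rw [← Finset.sum_mul, sum_zetaP_pow p hp n]
  split_ifs with h
  · rw [Nat.mul_div_cancel' h, smul_eq_mul]
  · simp

/-- The first elementary symmetric function of the conjugates is `(A + p • U_p B)(X^p)`. -/
lemma conjSeries_esymm_one (p : ℕ) (hp : p ≠ 0) (A B : PowerSeries ℂ) :
    (conjSeries p hp A B).esymm 1 =
      PowerSeries.expand p hp (A + (p : ℂ) • upSeries p B) := by
  have h1 : ∀ s : Multiset (PowerSeries ℂ), s.esymm 1 = s.sum := by
    intro s
    simp [Multiset.esymm, Multiset.powersetCard_one, Multiset.map_map]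
  rw [h1, conjSeries, Multiset.sum_cons, sum_rescale_zetaP p hp B, map_add, map_smul]

variable {p : ℕ} {hp : p ≠ 0}

/-- The trace to level one: `qExp F + p • U_p (Z k F)` is the `q`-expansion of a level one
form of weight `k`. -/
theorem CuspZeroData.trace_levelOne (T : CuspZeroData p hp) (k : ℤ)
    (F : ModularForm (CongruenceSubgroup.Gamma0 p) k) :
    ∃ e : ModularForm 𝒮ℒ k,
      qExpansion 1 e = qExpansion 1 F + (p : ℂ) • upSeries p (T.Z k F) := by
  obtain ⟨e, he⟩ := T.esymm_conj k F 1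
  rw [conjSeries_esymm_one] at he
  refine ⟨ModularForm.mcast (by simp) e, ?_⟩
  have := expand_injective p hp he
  simpa using this

/-- Level one forms of weight `2` have zero `q`-expansion. -/
lemma qExpansion_levelOne_two (e : ModularForm 𝒮ℒ 2) : qExpansion 1 e = 0 := by
  have h0 : e = 0 := by
    have := ModularForm.levelOne_weight_two_rank_zero
    rw [rank_zero_iff_forall_zero] at this
    exact this e
  rw [h0]
  exact qExpansion_zero 1

/-- Weight `2`: `qExp G + p • U_p (Z 2 G) = 0`. -/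
theorem CuspZeroData.trace_two (T : CuspZeroData p hp)
    (G : ModularForm (CongruenceSubgroup.Gamma0 p) 2) :
    qExpansion 1 G + (p : ℂ) • upSeries p (T.Z 2 G) = 0 := by
  obtain ⟨e, he⟩ := T.trace_levelOne 2 G
  rw [← he, qExpansion_levelOne_two]

/-- Weight `2`: `U_p (Z 2 G) = -(1/p) • qExp G`. -/
theorem CuspZeroData.upSeries_Z_two (T : CuspZeroData p hp)
    (G : ModularForm (CongruenceSubgroup.Gamma0 p) 2) :
    upSeries p (T.Z 2 G) = -((p : ℂ)⁻¹) • qExpansion 1 G := by
  have h := T.trace_two G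
  have hp' : (p : ℂ) ≠ 0 := Nat.cast_ne_zero.mpr hp
  have h2 : (p : ℂ) • upSeries p (T.Z 2 G) = -qExpansion 1 G := by
    rw [eq_neg_iff_add_eq_zero, add_comm]; exact h
  calc upSeries p (T.Z 2 G) = (p : ℂ)⁻¹ • ((p : ℂ) • upSeries p (T.Z 2 G)) := by
        rw [smul_smul, inv_mul_cancel₀ hp', one_smul]
    _ = -((p : ℂ)⁻¹) • qExpansion 1 G := by rw [h2]; module

/-- Weight `2`: the expansion at the cusp `0` is `Z 2 G = -(1/p) • U_p (qExp G)`. -/
theorem CuspZeroData.Z_two (T : CuspZeroData p hp)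
    (G : ModularForm (CongruenceSubgroup.Gamma0 p) 2) :
    T.Z 2 G = -((p : ℂ)⁻¹) • upSeries p (qExpansion 1 G) := by
  obtain ⟨G', hG', hZ'⟩ := T.Z_swap 2 even_two G
  have h := T.trace_two G'
  rw [hG', hZ'] at h
  have hp' : (p : ℂ) ≠ 0 := Nat.cast_ne_zero.mpr hp
  rw [upSeries_smul, smul_smul] at h
  have hc : (p : ℂ) * ((p : ℂ) ^ (2 : ℤ))⁻¹ = (p : ℂ)⁻¹ := by
    rw [zpow_ofNat]; field_simp
  rw [hc] at h
  rw [eq_neg_iff_add_eq_zero.mpr h]; module

/-- Weight `2`: `U_p (U_p (qExp G)) = qExp G`. -/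
theorem CuspZeroData.upSeries_upSeries_two (T : CuspZeroData p hp)
    (G : ModularForm (CongruenceSubgroup.Gamma0 p) 2) :
    upSeries p (upSeries p (qExpansion 1 G)) = qExpansion 1 G := by
  have h1 := T.upSeries_Z_two G
  rw [T.Z_two G, upSeries_smul] at h1
  have hp' : (p : ℂ) ≠ 0 := Nat.cast_ne_zero.mpr hp
  have h2 := congrArg (fun x => -(p : ℂ) • x) h1
  simp only [smul_smul] at h2
  have e1 : -(p : ℂ) * -((p : ℂ)⁻¹) = 1 := by field_simp
  rw [e1, one_smul, one_smul] at h2
  exact h2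


/-! ### Coefficient forms -/

/-- Coefficient form of `trace_levelOne`. -/
theorem CuspZeroData.coeff_trace_levelOne (T : CuspZeroData p hp) (k : ℤ)
    (F : ModularForm (CongruenceSubgroup.Gamma0 p) k) :
    ∃ e : ModularForm 𝒮ℒ k, ∀ n : ℕ,
      (qExpansion 1 e).coeff n =
        (qExpansion 1 F).coeff n + (p : ℂ) * (T.Z k F).coeff (p * n) := by
  obtain ⟨e, he⟩ := T.trace_levelOne k F
  refine ⟨e, fun n => ?_⟩
  rw [he]
  simp

/-- Coefficient form of `Z_two`: `b(n) = -(1/p) a(p n)`. -/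
theorem CuspZeroData.coeff_Z_two (T : CuspZeroData p hp)
    (G : ModularForm (CongruenceSubgroup.Gamma0 p) 2) (n : ℕ) :
    (T.Z 2 G).coeff n = -((p : ℂ)⁻¹) * (qExpansion 1 G).coeff (p * n) := by
  rw [T.Z_two G]
  simp

/-- Coefficient form of `upSeries_upSeries_two`: `a(p² n) = a(n)`. -/
theorem CuspZeroData.coeff_mul_mul_two (T : CuspZeroData p hp)
    (G : ModularForm (CongruenceSubgroup.Gamma0 p) 2) (n : ℕ) :
    (qExpansion 1 G).coeff (p * (p * n)) = (qExpansion 1 G).coeff n := by
  have h := congrArg (PowerSeries.coeff n) (T.upSeries_upSeries_two G)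
  simpa using h

end

end Fermat.Agent.S16
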