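import Fermat.Agent.S16.ToolkitAlg.Trace
import Mathlib.LinearAlgebra.Matrix.Charpoly.Coeff
import Mathlib.LinearAlgebra.Vandermonde
import Mathlib.RingTheory.Polynomial.Vieta

/-!
# S16 toolkit algebra, part 2: integrality of the elementary symmetric functions of the conjugates

Owner: helper99.

The `p` conjugates `B(ζ^j X)` are the eigenvalues of the matrix `mulMatrix p B` of multiplication
by `B(X)` on the basis `1, X, …, X^{p-1}` over the ring of series in `X^p`; the entries of that
matrix are built from the coefficients of `B` only (no `ζ`).  Hence every elementary symmetric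
function of the conjugates lies in any subring of `ℂ⟦X⟧` containing the entries.

Main results:
* `esymm_conj_mem` : for a subring `𝔖` of `ℂ⟦X⟧` containing all `mulEntry p B r s`,
  the `i`-th elementary symmetric function of the `B(ζ^j X)` is in `𝔖`.
* `esymm_conjSeries_mem` : same for the `p + 1` conjugates `conjSeries p hp A B`, if moreover
  `A(X^p) ∈ 𝔖`.
* `esymm_conjSeries_coeff_mem` : if `A`, `B` have coefficients in a subring `R ⊆ ℂ`, so have the
  elementary symmetric functions of the conjugates.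
* `esymm_conjSeries_coeff_mem_ideal` : version with constant terms in `R` and higher coefficients
  in an `R`-stable additive subgroup `J ≤ R`.
-/

set_option autoImplicit false

namespace Fermat.Agent.S16

open Polynomial in
/-- If `V * M = D * V` with `det V ≠ 0` over a domain, then `M` and `D` have the same
characteristic polynomial. -/
lemma charpoly_eq_of_intertwine {S : Type*} [CommRing S] [IsDomain S] {n : Type*} [Fintype n]
    [DecidableEq n] (V M D : Matrix n n S) (h : V * M = D * V) (hV : V.det ≠ 0) :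
    M.charpoly = D.charpoly := by
  have key : (C : S →+* S[X]).mapMatrix V * M.charmatrix =
      D.charmatrix * (C : S →+* S[X]).mapMatrix V := by
    unfold Matrix.charmatrix
    rw [mul_sub, sub_mul, ← map_mul, ← map_mul, h]
    congr 1
    exact ((Matrix.scalar_commute (X : S[X]) (fun r' => Commute.all _ r')
      ((C : S →+* S[X]).mapMatrix V)).eq).symm
  have hdet := congrArg Matrix.det key
  rw [Matrix.det_mul, Matrix.det_mul] at hdet
  have hV' : ((C : S →+* S[X]).mapMatrix V).det ≠ 0 := by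
    rw [← RingHom.map_det]
    simpa using hV
  unfold Matrix.charpoly
  rw [mul_comm] at hdet
  exact mul_right_cancel₀ hV' hdet

noncomputable section

/-- Entry `(r, s)` of the matrix of multiplication by `B(X)` on the basis `X^r`, `r < p`,
over the series in `X^p`:  `B · X^s = ∑_r X^r · mulEntry p B r s`. -/
def mulEntry (p : ℕ) (B : PowerSeries ℂ) (r s : ℕ) : PowerSeries ℂ :=
  PowerSeries.mk fun n => if p ∣ n ∧ s ≤ n + r then PowerSeries.coeff (n + r - s) B else 0

lemma coeff_mulEntry (p : ℕ) (B : PowerSeries ℂ) (r s n : ℕ) :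
    PowerSeries.coeff n (mulEntry p B r s) =
      if p ∣ n ∧ s ≤ n + r then PowerSeries.coeff (n + r - s) B else 0 := by
  simp [mulEntry]

/-- The matrix of multiplication by `B(X)`. -/
def mulMatrix (p : ℕ) (B : PowerSeries ℂ) : Matrix (Fin p) (Fin p) (PowerSeries ℂ) :=
  Matrix.of fun r s => mulEntry p B r s

lemma rescale_mulEntry (p : ℕ) (hp : p ≠ 0) (B : PowerSeries ℂ) (r s j : ℕ) :
    PowerSeries.rescale (zetaP p ^ j) (mulEntry p B r s) = mulEntry p B r s := by
  ext n
  rw [PowerSeries.coeff_rescale, coeff_mulEntry]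
  split_ifs with h
  · obtain ⟨⟨m, rfl⟩, _⟩ := h
    have : (zetaP p ^ j) ^ (p * m) = 1 := by
      rw [← pow_mul, mul_comm j, mul_assoc, pow_mul, zetaP_pow_self p hp, one_pow]
    rw [this, one_mul]
  · simp

/-- `B · X^s = ∑_{r < p} X^r · mulEntry p B r s`. -/
lemma mul_X_pow_eq_sum (p : ℕ) (hp : p ≠ 0) (B : PowerSeries ℂ) (s : ℕ) :
    B * PowerSeries.X ^ s = ∑ r ∈ Finset.range p, PowerSeries.X ^ r * mulEntry p B r s := by
  ext n
  rw [PowerSeries.coeff_mul_X_pow', map_sum]
  simp only [PowerSeries.coeff_X_pow_mul', coeff_mulEntry]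
  have hppos : 0 < p := Nat.pos_of_ne_zero hp
  rw [Finset.sum_eq_single (n % p)]
  · have h1 : n % p ≤ n := Nat.mod_le n p
    have h2 : p ∣ n - n % p := Nat.dvd_sub_mod n
    have h3 : n - n % p + n % p = n := Nat.sub_add_cancel h1
    rw [if_pos h1, h3]
    by_cases hsn : s ≤ n
    · rw [if_pos hsn, if_pos ⟨h2, hsn⟩]
    · rw [if_neg hsn, if_neg (fun h => hsn h.2)]
  · intro r hr hne
    split_ifs with h1 h2
    · exfalso
      apply hne
      obtain ⟨⟨m, hm⟩, _⟩ := h2
      have hrp : r < p := Finset.mem_range.mp hr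
      have : n = r + p * m := by omega
      rw [this, Nat.add_mul_mod_self_left, Nat.mod_eq_of_lt hrp]
    · rfl
    · rfl
  · intro h
    exact absurd (Finset.mem_range.mpr (Nat.mod_lt n hppos)) h

/-- The Vandermonde matrix `(ζ^j X)^r`. -/
def vdmMatrix (p : ℕ) : Matrix (Fin p) (Fin p) (PowerSeries ℂ) :=
  Matrix.vandermonde fun j : Fin p => PowerSeries.C (zetaP p ^ (j : ℕ)) * PowerSeries.X

lemma vdmMatrix_apply (p : ℕ) (j r : Fin p) :
    vdmMatrix p j r = PowerSeries.rescale (zetaP p ^ (j : ℕ)) (PowerSeries.X ^ (r : ℕ)) := by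
  rw [vdmMatrix, Matrix.vandermonde_apply, ← PowerSeries.rescale_X, ← map_pow]

lemma det_vdmMatrix_ne_zero (p : ℕ) (hp : p ≠ 0) : (vdmMatrix p).det ≠ 0 := by
  rw [vdmMatrix, Matrix.det_vandermonde_ne_zero_iff]
  intro i j hij
  have h1 := congrArg (PowerSeries.coeff 1) hij
  simp only [PowerSeries.coeff_C_mul, PowerSeries.coeff_one_X, mul_one] at h1
  have hζ := zetaP_isPrimitiveRoot p hp
  exact Fin.ext (hζ.pow_inj i.2 j.2 h1)

/-- The diagonal matrix of the conjugates `B(ζ^j X)`. -/
def conjDiag (p : ℕ) (B : PowerSeries ℂ) : Matrix (Fin p) (Fin p) (PowerSeries ℂ) :=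
  Matrix.diagonal fun j : Fin p => PowerSeries.rescale (zetaP p ^ (j : ℕ)) B

lemma vdm_mul_mulMatrix (p : ℕ) (hp : p ≠ 0) (B : PowerSeries ℂ) :
    vdmMatrix p * mulMatrix p B = conjDiag p B * vdmMatrix p := by
  refine Matrix.ext fun j s => ?_
  rw [Matrix.mul_apply, conjDiag, Matrix.diagonal_mul, vdmMatrix_apply, ← map_mul,
    mul_X_pow_eq_sum p hp B s, map_sum, ← Fin.sum_univ_eq_sum_range
      (fun r => PowerSeries.rescale (zetaP p ^ (j : ℕ)) (PowerSeries.X ^ r * mulEntry p B r s))]
  refine Finset.sum_congr rfl fun r _ => ?_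
  rw [map_mul, rescale_mulEntry p hp, vdmMatrix_apply]
  rfl

/-- The characteristic polynomial of `mulMatrix p B` is `∏_j (Y - B(ζ^j X))`. -/
lemma charpoly_mulMatrix (p : ℕ) (hp : p ≠ 0) (B : PowerSeries ℂ) :
    (mulMatrix p B).charpoly =
      (((Multiset.range p).map fun j => PowerSeries.rescale (zetaP p ^ j) B).map
        fun t => Polynomial.X - Polynomial.C t).prod := by
  rw [charpoly_eq_of_intertwine (vdmMatrix p) (mulMatrix p B) (conjDiag p B)
    (vdm_mul_mulMatrix p hp B) (det_vdmMatrix_ne_zero p hp), conjDiag, Matrix.charpoly_diagonal,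
    Multiset.map_map]
  rw [Fin.prod_univ_eq_prod_range
    (fun j => Polynomial.X - Polynomial.C (PowerSeries.rescale (zetaP p ^ j) B)) p]
  rfl

/-- The elementary symmetric functions of the `p` conjugates `B(ζ^j X)` are, up to sign, the
coefficients of the characteristic polynomial of `mulMatrix p B`. -/
lemma esymm_conj_eq_coeff (p : ℕ) (hp : p ≠ 0) (B : PowerSeries ℂ) (i : ℕ) (hi : i ≤ p) :
    ((Multiset.range p).map fun j => PowerSeries.rescale (zetaP p ^ j) B).esymm i =
      (-1) ^ i * (mulMatrix p B).charpoly.coeff (p - i) := by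
  set s := (Multiset.range p).map fun j => PowerSeries.rescale (zetaP p ^ j) B with hs
  have hcard : Multiset.card s = p := by simp [hs]
  have h := Multiset.prod_X_sub_C_coeff s (k := p - i) (by rw [hcard]; exact Nat.sub_le p i)
  rw [hcard, Nat.sub_sub_self hi] at h
  rw [charpoly_mulMatrix p hp B, h, ← mul_assoc, ← pow_add, ← two_mul, pow_mul]
  simp

/-- Coefficients of the characteristic polynomial of a matrix with entries in a subring lie in
the subring. -/
lemma charpoly_coeff_mem_subring {S : Type*} [CommRing S] {n : Type*} [Fintype n] [DecidableEq n]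
    (𝔖 : Subring S) (M : Matrix n n S) (hM : ∀ i j, M i j ∈ 𝔖) (k : ℕ) :
    M.charpoly.coeff k ∈ 𝔖 := by
  let M₀ : Matrix n n 𝔖 := Matrix.of fun i j => ⟨M i j, hM i j⟩
  have hmap : M = M₀.map 𝔖.subtype := by
    ext i j; rfl
  rw [hmap, Matrix.charpoly_map, Polynomial.coeff_map]
  exact (M₀.charpoly.coeff k).2

/-- The elementary symmetric functions of the `p` conjugates `B(ζ^j X)` lie in every subring
containing the entries of `mulMatrix p B`. -/
theorem esymm_conj_mem (p : ℕ) (hp : p ≠ 0) (𝔖 : Subring (PowerSeries ℂ)) (B : PowerSeries ℂ)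
    (hM : ∀ r s : ℕ, r < p → s < p → mulEntry p B r s ∈ 𝔖) (i : ℕ) :
    ((Multiset.range p).map fun j => PowerSeries.rescale (zetaP p ^ j) B).esymm i ∈ 𝔖 := by
  by_cases hi : i ≤ p
  · rw [esymm_conj_eq_coeff p hp B i hi]
    refine 𝔖.mul_mem (𝔖.pow_mem (𝔖.neg_mem 𝔖.one_mem) i) ?_
    exact charpoly_coeff_mem_subring 𝔖 (mulMatrix p B) (fun r s => hM r s r.2 s.2) _
  · have : ((Multiset.range p).map fun j => PowerSeries.rescale (zetaP p ^ j) B).esymm i = 0 := by
      rw [Multiset.esymm, Multiset.powersetCard_eq_empty, Multiset.map_zero, Multiset.sum_zero]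
      simpa using hi
    rw [this]
    exact 𝔖.zero_mem

lemma esymm_cons {S : Type*} [CommSemiring S] (a : S) (s : Multiset S) (i : ℕ) :
    (a ::ₘ s).esymm (i + 1) = s.esymm (i + 1) + a * s.esymm i := by
  simp only [Multiset.esymm, Multiset.powersetCard_cons, Multiset.map_add, Multiset.sum_add,
    Multiset.map_map, Function.comp_def, Multiset.prod_cons, Multiset.sum_map_mul_left]

lemma esymm_zero' {S : Type*} [CommSemiring S] (s : Multiset S) : s.esymm 0 = 1 := by
  simp [Multiset.esymm]

/-- The elementary symmetric functions of the `p + 1` conjugates lie in every subring of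
`ℂ⟦X⟧` containing `A(X^p)` and the entries of `mulMatrix p B`. -/
theorem esymm_conjSeries_mem (p : ℕ) (hp : p ≠ 0) (𝔖 : Subring (PowerSeries ℂ))
    (A B : PowerSeries ℂ) (hA : PowerSeries.expand p hp A ∈ 𝔖)
    (hM : ∀ r s : ℕ, r < p → s < p → mulEntry p B r s ∈ 𝔖) (i : ℕ) :
    (conjSeries p hp A B).esymm i ∈ 𝔖 := by
  unfold conjSeries
  cases i with
  | zero => rw [esymm_zero']; exact 𝔖.one_mem
  | succ i =>
    rw [esymm_cons]
    exact 𝔖.add_mem (esymm_conj_mem p hp 𝔖 B hM _) (𝔖.mul_mem hA (esymm_conj_mem p hp 𝔖 B hM _))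


/-! ### Coefficientwise versions -/

/-- The subring of `ℂ⟦X⟧` of series with constant term in `R` and all higher coefficients in an
`R`-stable additive subgroup `J ≤ R`. -/
def coeffSubring (R : Subring ℂ) (J : AddSubgroup ℂ) (hJR : ∀ r ∈ R, ∀ x ∈ J, r * x ∈ J)
    (hJ : J ≤ R.toAddSubgroup) : Subring (PowerSeries ℂ) where
  carrier := {f | PowerSeries.coeff 0 f ∈ R ∧ ∀ n : ℕ, 1 ≤ n → PowerSeries.coeff n f ∈ J}
  mul_mem' := by
    rintro f g ⟨hf0, hf⟩ ⟨hg0, hg⟩
    have hfR : ∀ n, PowerSeries.coeff n f ∈ R := fun n => by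
      rcases Nat.eq_zero_or_pos n with rfl | hn
      · exact hf0
      · exact hJ (hf n hn)
    have hgR : ∀ n, PowerSeries.coeff n g ∈ R := fun n => by
      rcases Nat.eq_zero_or_pos n with rfl | hn
      · exact hg0
      · exact hJ (hg n hn)
    refine ⟨?_, fun n hn => ?_⟩
    · rw [PowerSeries.coeff_mul]
      exact R.sum_mem fun x _ => R.mul_mem (hfR _) (hgR _)
    · rw [PowerSeries.coeff_mul]
      refine J.sum_mem fun x hx => ?_
      have hx' : x.1 + x.2 = n := Finset.HasAntidiagonal.mem_antidiagonal.mp hx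
      by_cases h1 : 1 ≤ x.1
      · rw [mul_comm]
        exact hJR _ (hgR _) _ (hf _ h1)
      · have h2 : 1 ≤ x.2 := by omega
        exact hJR _ (hfR _) _ (hg _ h2)
  one_mem' := by
    refine ⟨by simp, fun n hn => ?_⟩
    rw [PowerSeries.coeff_one, if_neg (by omega)]
    exact J.zero_mem
  add_mem' := by
    rintro f g ⟨hf0, hf⟩ ⟨hg0, hg⟩
    exact ⟨by simpa using R.add_mem hf0 hg0, fun n hn => by simpa using J.add_mem (hf n hn) (hg n hn)⟩
  zero_mem' := ⟨by simp, fun n _ => by simp⟩
  neg_mem' := by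
    rintro f ⟨hf0, hf⟩
    exact ⟨by simpa using R.neg_mem hf0, fun n hn => by simpa using J.neg_mem (hf n hn)⟩

lemma mem_coeffSubring (R : Subring ℂ) (J : AddSubgroup ℂ) (hJR : ∀ r ∈ R, ∀ x ∈ J, r * x ∈ J)
    (hJ : J ≤ R.toAddSubgroup) (f : PowerSeries ℂ) :
    f ∈ coeffSubring R J hJR hJ ↔
      PowerSeries.coeff 0 f ∈ R ∧ ∀ n : ℕ, 1 ≤ n → PowerSeries.coeff n f ∈ J :=
  Iff.rfl

/-- Integrality of the elementary symmetric functions of the conjugates, with an ideal:
if `A`, `B` have constant terms in the subring `R` and higher coefficients in the `R`-stable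
additive subgroup `J ≤ R`, then so has every elementary symmetric function of the `p + 1`
conjugates. -/
theorem esymm_conjSeries_coeff_mem_ideal (p : ℕ) (hp : p ≠ 0) (R : Subring ℂ) (J : AddSubgroup ℂ)
    (hJR : ∀ r ∈ R, ∀ x ∈ J, r * x ∈ J) (hJ : J ≤ R.toAddSubgroup)
    (A B : PowerSeries ℂ) (hA0 : PowerSeries.coeff 0 A ∈ R) (hB0 : PowerSeries.coeff 0 B ∈ R)
    (hA : ∀ n : ℕ, 1 ≤ n → PowerSeries.coeff n A ∈ J)
    (hB : ∀ n : ℕ, 1 ≤ n → PowerSeries.coeff n B ∈ J) (i : ℕ) :
    PowerSeries.coeff 0 ((conjSeries p hp A B).esymm i) ∈ R ∧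
      ∀ n : ℕ, 1 ≤ n → PowerSeries.coeff n ((conjSeries p hp A B).esymm i) ∈ J := by
  have hppos : 0 < p := Nat.pos_of_ne_zero hp
  have hBR : ∀ n, PowerSeries.coeff n B ∈ R := fun n => by
    rcases Nat.eq_zero_or_pos n with rfl | hn
    · exact hB0
    · exact hJ (hB n hn)
  rw [← mem_coeffSubring R J hJR hJ]
  apply esymm_conjSeries_mem
  · rw [mem_coeffSubring]
    refine ⟨by simpa using hA0, fun n hn => ?_⟩
    rw [PowerSeries.coeff_expand]
    split_ifs with h
    · obtain ⟨m, rfl⟩ := h
      rw [Nat.mul_div_cancel_left _ hppos]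
      apply hA
      rcases Nat.eq_zero_or_pos m with rfl | hm
      · simp at hn
      · exact hm
    · exact J.zero_mem
  · intro r s _ hs
    rw [mem_coeffSubring]
    refine ⟨?_, fun n hn => ?_⟩
    · rw [coeff_mulEntry]
      split_ifs
      · exact hBR _
      · exact R.zero_mem
    · rw [coeff_mulEntry]
      split_ifs with h
      · apply hB
        obtain ⟨⟨m, rfl⟩, _⟩ := h
        have hm : 1 ≤ m := by
          rcases Nat.eq_zero_or_pos m with rfl | hm
          · simp at hn
          · exact hm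
        have : p ≤ p * m := Nat.le_mul_of_pos_right p hm
        omega
      · exact J.zero_mem

/-- Integrality of the elementary symmetric functions of the conjugates: if `A`, `B` have
coefficients in a subring `R ⊆ ℂ`, then so has every elementary symmetric function of the
`p + 1` conjugates (no `ζ` needed). -/
theorem esymm_conjSeries_coeff_mem (p : ℕ) (hp : p ≠ 0) (R : Subring ℂ)
    (A B : PowerSeries ℂ) (hA : ∀ n : ℕ, PowerSeries.coeff n A ∈ R)
    (hB : ∀ n : ℕ, PowerSeries.coeff n B ∈ R) (i n : ℕ) :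
    PowerSeries.coeff n ((conjSeries p hp A B).esymm i) ∈ R := by
  have h := esymm_conjSeries_coeff_mem_ideal p hp R R.toAddSubgroup
    (fun r hr x hx => R.mul_mem hr hx) le_rfl A B (hA 0) (hB 0)
    (fun n _ => hA n) (fun n _ => hB n) i
  rcases Nat.eq_zero_or_pos n with rfl | hn
  · exact h.1
  · exact h.2 n hn

end

end Fermat.Agent.S16
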