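import Fermat.Agent.S16.ToolkitAlg.Integral
import Fermat.Agent.S23.ConverseQExp
import Fermat.Agent.S23.MF

/-!
# S16 toolkit algebra, part 3: the root identity

Owner: helper99.

For `Y ∈ M_k(Γ₀(p))` the elementary symmetric functions of its `p + 1` conjugates are level one
forms `e i ∈ M_{k i}(SL₂(ℤ))` and `Y` is a root of the monic polynomial
`∑ (-1)^i e_i T^{p+1-i}`:  for every `τ ∈ ℍ`,
`∑_{i ≤ p+1} (-1)^i e_i(τ) Y(τ)^{p+1-i} = 0`, with `e_0 = 1`.
-/

set_option autoImplicit false

namespace Fermat.Agent.S16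

open ModularCurve CuspForm UpperHalfPlane ModularFormClass
open scoped MatrixGroups
open Fermat.Agent.S23Converse

noncomputable section

/-- A member of a multiset is a root of `∑ (-1)^j esymm_j T^{card - j}`. -/
lemma sum_esymm_mul_pow_eq_zero {S : Type*} [CommRing S] (s : Multiset S) (a : S) (ha : a ∈ s) :
    ∑ j ∈ Finset.range (Multiset.card s + 1),
      (-1 : S) ^ j * (s.esymm j * a ^ (Multiset.card s - j)) = 0 := by
  have h := congrArg (Polynomial.eval a) (Multiset.prod_X_sub_X_eq_sum_esymm s)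
  rw [Polynomial.eval_multiset_prod, Multiset.map_map] at h
  have h0 : (Multiset.map (Polynomial.eval a ∘ fun t => Polynomial.X - Polynomial.C t) s).prod
      = 0 := by
    apply Multiset.prod_eq_zero
    rw [Multiset.mem_map]
    exact ⟨a, ha, by simp⟩
  rw [h0, Polynomial.eval_finsetSum] at h
  rw [h]
  refine Finset.sum_congr rfl fun j _ => ?_
  simp

lemma IsGood.const_smul' {f : ℍ → ℂ} (hf : IsGood f) (c : ℂ) : IsGood (c • f) where
  periodic := fun x => by
    have := hf.periodic x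
    simp only [Function.comp_apply, Pi.smul_apply] at this ⊢
    rw [this]
  holo := hf.holo.const_smul c
  bdd := hf.bdd.const_smul_left c

variable {p : ℕ} {hp : p ≠ 0}

/-- The root identity: `Y` is a root of `∑ (-1)^i e_i T^{p+1-i}` where the `e_i` are level one
forms whose `q`-expansions are the elementary symmetric functions of the conjugates of `Y`. -/
theorem CuspZeroData.root_identity (T : CuspZeroData p hp) (k : ℤ)
    (Y : ModularForm (CongruenceSubgroup.Gamma0 p) k) :
    ∃ e : (i : ℕ) → ModularForm 𝒮ℒ (k * i),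
      (∀ i, PowerSeries.expand p hp (qExpansion 1 (e i)) =
        (conjSeries p hp (qExpansion 1 Y) (T.Z k Y)).esymm i) ∧
      qExpansion 1 (e 0) = 1 ∧ (∀ τ : ℍ, e 0 τ = 1) ∧
      ∀ τ : ℍ, ∑ i ∈ Finset.range (p + 2), (-1 : ℂ) ^ i * (e i τ * Y τ ^ (p + 1 - i)) = 0 := by
  choose e he using fun i => T.esymm_conj k Y i
  have hYg : IsGood (⇑Y : ℍ → ℂ) :=
    isGood_of_modularFormClass (Fermat.Agent.S23.one_mem_strictPeriods_G0 p) Y
  have heg : ∀ i, IsGood (⇑(e i) : ℍ → ℂ) := fun i =>
    isGood_of_modularFormClass Fermat.Agent.S23.one_mem_strictPeriods_SL (e i)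
  have he0 : qExpansion 1 (e 0) = 1 := by
    apply expand_injective p hp
    rw [he 0, esymm_zero', map_one]
  have he0' : (⇑(e 0) : ℍ → ℂ) = 1 := by
    have h1 : IsGood ((⇑(e 0) : ℍ → ℂ) + (-1 : ℂ) • (1 : ℍ → ℂ)) :=
      (heg 0).add (IsGood.const_smul' IsGood.one _)
    have h2 : qExpansion 1 ((⇑(e 0) : ℍ → ℂ) + (-1 : ℂ) • (1 : ℍ → ℂ)) = 0 := by
      rw [(heg 0).qExpansion_add (IsGood.const_smul' IsGood.one _),
        UpperHalfPlane.qExpansion_smul IsGood.one.analyticAt, he0, UpperHalfPlane.qExpansion_one]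
      simp
    have h3 := h1.eq_zero_of_qExpansion_eq_zero h2
    funext τ
    have h4 := congrFun h3 τ
    simp only [Pi.add_apply, Pi.smul_apply, Pi.one_apply, Pi.zero_apply, smul_eq_mul] at h4
    simp only [Pi.one_apply]
    linear_combination h4
  refine ⟨e, he, he0, fun τ => congrFun he0' τ, ?_⟩
  -- the power series identity
  set A := qExpansion 1 Y with hA
  set s := conjSeries p hp A (T.Z k Y) with hs
  have hcard : Multiset.card s = p + 1 := by simp [hs, conjSeries]
  have hmem : PowerSeries.expand p hp A ∈ s := by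
    rw [hs, conjSeries]; exact Multiset.mem_cons_self _ _
  have hps := sum_esymm_mul_pow_eq_zero s _ hmem
  rw [hcard] at hps
  have hps2 : ∑ i ∈ Finset.range (p + 2),
      (-1 : PowerSeries ℂ) ^ i * (qExpansion 1 (e i) * A ^ (p + 1 - i)) = 0 := by
    apply expand_injective p hp
    rw [map_sum, map_zero, ← hps]
    refine Finset.sum_congr rfl fun i _ => ?_
    rw [map_mul, map_mul, map_pow, map_pow, map_neg, map_one, he i]
  -- the function
  let Φ : ℕ → ℍ → ℂ := fun i => ((-1 : ℂ) ^ i) • ((⇑(e i) : ℍ → ℂ) * (⇑Y : ℍ → ℂ) ^ (p + 1 - i))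
  have hΦg : ∀ i ∈ Finset.range (p + 2), IsGood (Φ i) := fun i _ =>
    IsGood.const_smul' ((heg i).mul (hYg.pow _)) _
  have hq : qExpansion 1 (∑ i ∈ Finset.range (p + 2), Φ i) = 0 := by
    rw [IsGood.qExpansion_sum _ hΦg, ← hps2]
    refine Finset.sum_congr rfl fun i _ => ?_
    show qExpansion 1 (((-1 : ℂ) ^ i) • ((⇑(e i) : ℍ → ℂ) * (⇑Y : ℍ → ℂ) ^ (p + 1 - i))) = _
    rw [UpperHalfPlane.qExpansion_smul ((heg i).mul (hYg.pow _)).analyticAt,
      (heg i).qExpansion_mul (hYg.pow _), hYg.qExpansion_pow]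
    rw [PowerSeries.smul_eq_C_mul, map_pow, map_neg, map_one]
  have hzero := (IsGood.sum _ hΦg).eq_zero_of_qExpansion_eq_zero hq
  intro τ
  have := congrFun hzero τ
  simpa [Φ, Finset.sum_apply] using this

end

end Fermat.Agent.S16
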